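import Fermat.Agent.LubinTate.NormOperator.NormGroup
import Mathlib.FieldTheory.Finite.Extension
import Mathlib.FieldTheory.PrimitiveElement
import Mathlib.RingTheory.Henselian
import Mathlib.Algebra.Polynomial.Eval.Irreducible
import Mathlib.NumberTheory.Cyclotomic.Basic

/-!
# The unramified extensions

Over the fraction field of a complete discrete valuation ring with residue field of `q` elements
the extension of degree `m` obtained by lifting an irreducible polynomial of the residue field is
cyclotomic of level `q ^ m - 1`, and its norms have valuation divisible by `m`.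
-/

set_option autoImplicit false

noncomputable section

open Polynomial IsLocalRing

namespace Fermat.Agent.LubinTate

/-- A finite field has irreducible polynomials of every degree. -/
theorem exists_irreducible_natDegree (k : Type*) [Field k] [Finite k] {m : ℕ} (hm : 0 < m) :
    ∃ f : k[X], f.Monic ∧ Irreducible f ∧ f.natDegree = m := by
  obtain ⟨p, hp⟩ := CharP.exists k
  let := Fintype.ofFinite k
  obtain ⟨n, hpp, -⟩ := FiniteField.card k p
  have := Fact.mk hpp
  have : NeZero m := ⟨hm.ne'⟩
  obtain ⟨α, hα⟩ := Field.exists_primitive_element k (FiniteField.Extension k p m)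
  have hint : IsIntegral k α := Algebra.IsIntegral.isIntegral α
  refine ⟨minpoly k α, minpoly.monic hint, minpoly.irreducible hint, ?_⟩
  rw [← IntermediateField.adjoin.finrank hint, hα, IntermediateField.finrank_top',
    FiniteField.finrank_extension]

variable {O : Type*} [CommRing O] [IsDomain O] [IsDiscreteValuationRing O]
  [IsAdicComplete (maximalIdeal O) O] [Finite (ResidueField O)] {π : O}

omit [Finite (ResidueField O)] in
/-- A finite free algebra over `O` is complete for the ideal generated by `π`. -/
theorem isAdicComplete_span_algebraMap (hπ : Irreducible π) {B : Type*} [CommRing B] [Algebra O B]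
    {ι : Type*} [Fintype ι] (b : Module.Basis ι O B) :
    IsAdicComplete (Ideal.span {algebraMap O B π}) B := by
  classical
  have hpow : ∀ (n : ℕ) (x : B), x ∈ Ideal.span {algebraMap O B π} ^ n ↔
      ∀ i, b.repr x i ∈ maximalIdeal O ^ n := fun n x => by
    simp only [hπ.maximalIdeal_eq, Ideal.span_singleton_pow, Ideal.mem_span_singleton]
    refine ⟨?_, fun h => ?_⟩
    · rintro ⟨y, rfl⟩ i
      rw [← map_pow, ← Algebra.smul_def, map_smul, Finsupp.smul_apply, smul_eq_mul]
      exact dvd_mul_right _ _
    · choose z hz using h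
      refine ⟨∑ i, z i • b i, ?_⟩
      rw [← b.sum_repr x, Finset.mul_sum]
      refine Finset.sum_congr rfl fun i _ => ?_
      rw [hz i, mul_smul_comm, mul_smul, Algebra.smul_def (π ^ n), map_pow, mul_smul_comm]
  refine { toIsHausdorff := ⟨fun x hx => ?_⟩, toIsPrecomplete := ⟨fun f hf => ?_⟩ }
  · refine b.repr.map_eq_zero_iff.1 (Finsupp.ext fun i => ?_)
    refine IsHausdorff.haus inferInstance (I := maximalIdeal O) _ fun n => ?_
    have h := hx n
    rw [SModEq.zero, smul_eq_mul, Ideal.mul_top] at h ⊢
    exact (hpow n x).1 h i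
  · have hco : ∀ i, ∃ L : O, ∀ n, b.repr (f n) i - L ∈ maximalIdeal O ^ n := fun i => by
      obtain ⟨L, hL⟩ := IsPrecomplete.prec (inferInstance : IsPrecomplete (maximalIdeal O) O)
        (f := fun n => b.repr (f n) i) fun {m n} h => by
          rw [SModEq.sub_mem, smul_eq_mul, Ideal.mul_top, ← Finsupp.sub_apply, ← map_sub]
          have h1 := hf h
          rw [SModEq.sub_mem, smul_eq_mul, Ideal.mul_top] at h1
          exact (hpow m _).1 h1 i
      refine ⟨L, fun n => ?_⟩
      have h1 := hL n
      rwa [SModEq.sub_mem, smul_eq_mul, Ideal.mul_top] at h1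
    choose L hL using hco
    refine ⟨∑ i, L i • b i, fun n => ?_⟩
    rw [SModEq.sub_mem, smul_eq_mul, Ideal.mul_top, hpow]
    intro i
    rw [map_sub, Finsupp.sub_apply, b.repr_sum_self]
    exact hL i n

section Residue

variable (f : O[X])

/-- Reduction of `O[X] / f` modulo `π`. -/
def residueMap : AdjoinRoot f →+* AdjoinRoot (f.map (residue O)) :=
  AdjoinRoot.lift ((AdjoinRoot.of _).comp (residue O)) (AdjoinRoot.root _)
    (by rw [← eval₂_map, AdjoinRoot.eval₂_root])

omit [IsAdicComplete (maximalIdeal O) O] [Finite (ResidueField O)] in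
theorem residueMap_mk (g : O[X]) :
    residueMap f (AdjoinRoot.mk f g) = AdjoinRoot.mk (f.map (residue O)) (g.map (residue O)) := by
  rw [residueMap, AdjoinRoot.lift_mk, ← eval₂_map, ← AdjoinRoot.algebraMap_eq, ← aeval_def,
    AdjoinRoot.aeval_eq]

omit [IsAdicComplete (maximalIdeal O) O] [Finite (ResidueField O)] in
theorem ker_residueMap (hπ : Irreducible π) (x : AdjoinRoot f) :
    residueMap f x = 0 ↔ x ∈ Ideal.span {algebraMap O (AdjoinRoot f) π} := by
  have hπ0 : residue O π = 0 := (residue_eq_zero_iff π).2 (by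
    rw [hπ.maximalIdeal_eq]; exact Ideal.mem_span_singleton_self π)
  constructor
  · obtain ⟨g, rfl⟩ := AdjoinRoot.mk_surjective x
    intro h
    rw [residueMap_mk, AdjoinRoot.mk_eq_zero] at h
    obtain ⟨c, hc⟩ := h
    obtain ⟨c, rfl⟩ := Polynomial.map_surjective _ IsLocalRing.residue_surjective c
    rw [← Polynomial.map_mul, ← sub_eq_zero, ← Polynomial.map_sub, ← mem_span_C_iff hπ] at hc
    obtain ⟨d, hd⟩ := Ideal.mem_span_singleton'.1 hc
    rw [show g = f * c + d * C π by linear_combination -hd, map_add, map_mul, map_mul,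
      AdjoinRoot.mk_self, zero_mul, zero_add, AdjoinRoot.mk_C, AdjoinRoot.algebraMap_eq]
    exact Ideal.mul_mem_left _ _ (Ideal.mem_span_singleton_self _)
  · intro h
    obtain ⟨c, rfl⟩ := Ideal.mem_span_singleton'.1 h
    rw [map_mul, AdjoinRoot.algebraMap_eq, ← AdjoinRoot.mk_C, residueMap_mk, map_C, hπ0, C_0,
      map_zero, mul_zero]

omit [IsAdicComplete (maximalIdeal O) O] [Finite (ResidueField O)] in
theorem residueMap_surjective : Function.Surjective (residueMap f) := fun y => by
  obtain ⟨g, rfl⟩ := AdjoinRoot.mk_surjective y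
  obtain ⟨g, rfl⟩ := Polynomial.map_surjective _ IsLocalRing.residue_surjective g
  exact ⟨_, residueMap_mk f g⟩

variable {f} (hf : f.Monic) (hirr : Irreducible (f.map (residue O)))
include hf hirr

omit [IsAdicComplete (maximalIdeal O) O] [Finite (ResidueField O)] in
theorem natDegree_pos_of_irreducible : 0 < f.natDegree := by
  rw [← hf.natDegree_map (residue O)]
  exact hirr.natDegree_pos

omit [Finite (ResidueField O)] in
/-- An element not divisible by `π` is a unit. -/
theorem isUnit_of_residueMap_ne_zero (hπ : Irreducible π) {x : AdjoinRoot f}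
    (hx : residueMap f x ≠ 0) : IsUnit x := by
  have := isAdicComplete_span_algebraMap hπ (AdjoinRoot.powerBasis' hf).basis
  have hloc := isLocalHom_of_le_jacobson_bot (Ideal.span {algebraMap O (AdjoinRoot f) π})
    (IsAdicComplete.le_jacobson_bot _)
  refine IsUnit.of_map (Ideal.Quotient.mk (Ideal.span {algebraMap O (AdjoinRoot f) π})) _ ?_
  have := Fact.mk hirr
  obtain ⟨y, hy⟩ := residueMap_surjective f (residueMap f x)⁻¹
  refine IsUnit.of_mul_eq_one (Ideal.Quotient.mk _ y) ?_
  rw [← map_mul, ← map_one (Ideal.Quotient.mk _), Ideal.Quotient.mk_eq_mk_iff_sub_mem,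
    ← ker_residueMap f hπ, map_sub, map_mul, hy, mul_inv_cancel₀ hx, map_one, sub_self]

omit [Finite (ResidueField O)] in
/-- Every nonzero element is a power of `π` times a unit. -/
theorem exists_pow_mul_unit (hπ : Irreducible π) {x : AdjoinRoot f} (hx : x ≠ 0) :
    ∃ (j : ℕ) (w : AdjoinRoot f), IsUnit w ∧ x = algebraMap O (AdjoinRoot f) π ^ j * w := by
  classical
  have := isAdicComplete_span_algebraMap hπ (AdjoinRoot.powerBasis' hf).basis
  set J := Ideal.span {algebraMap O (AdjoinRoot f) π}
  have hex : ∃ j, x ∉ J ^ j := by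
    by_contra! h
    refine hx (IsHausdorff.haus inferInstance (I := J) x fun n => ?_)
    rw [SModEq.zero, smul_eq_mul, Ideal.mul_top]
    exact h n
  obtain ⟨j, hj⟩ : ∃ j, Nat.find hex = j + 1 := by
    refine Nat.exists_eq_succ_of_ne_zero fun h0 => ?_
    have := Nat.find_spec hex
    rw [h0, pow_zero, Ideal.one_eq_top] at this
    exact this trivial
  have hmem : x ∈ J ^ j := not_not.1 (Nat.find_min hex (by omega))
  have hnot : x ∉ J ^ (j + 1) := hj ▸ Nat.find_spec hex
  rw [Ideal.span_singleton_pow] at hmem
  obtain ⟨w, rfl⟩ := Ideal.mem_span_singleton'.1 hmem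
  refine ⟨j, w, isUnit_of_residueMap_ne_zero hf hirr hπ fun h => hnot ?_, mul_comm _ _⟩
  rw [pow_succ', Ideal.span_singleton_pow]
  exact Ideal.mul_mem_mul ((ker_residueMap f hπ w).1 h) (Ideal.mem_span_singleton_self _)

variable {K : Type*} [Field K] [Algebra O K] [IsFractionRing O K] (L : Type*) [Field L]
  [Algebra K L] [Algebra O L] [IsScalarTower O K L] (x₀ : L)
  (hx₀ : aeval x₀ f = 0) (hgen : Algebra.adjoin K {x₀} = ⊤)
include hx₀ hgen

omit [IsAdicComplete (maximalIdeal O) O] [Finite (ResidueField O)] in
omit hgen in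
theorem minpoly_unramified : minpoly K x₀ = f.map (algebraMap O K) := by
  refine (minpoly.eq_of_irreducible_of_monic ?_ ?_ (hf.map _)).symm
  · exact (Monic.irreducible_iff_irreducible_map_fraction_map hf).1
      (Polynomial.Monic.irreducible_of_irreducible_map (residue O) f hf hirr)
  · rw [aeval_map_algebraMap, hx₀]

omit [IsDomain O] [IsDiscreteValuationRing O] [IsAdicComplete (maximalIdeal O) O]
  [Finite (ResidueField O)] [IsFractionRing O K] hirr in
theorem finiteDimensional_unramified : FiniteDimensional K L :=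
  ((Algebra.adjoin.powerBasis (K := K) ⟨f.map (algebraMap O K), hf.map _, by
      rw [← aeval_def, aeval_map_algebraMap, hx₀]⟩).map
    ((Subalgebra.equivOfEq _ _ hgen).trans Subalgebra.topEquiv)).finite

omit [IsAdicComplete (maximalIdeal O) O] [Finite (ResidueField O)] in
theorem finrank_unramified : Module.finrank K L = f.natDegree := by
  have hint : IsIntegral K x₀ := IsIntegral.tower_top (R := O) ⟨f, hf, hx₀⟩
  rw [((Algebra.adjoin.powerBasis hint).map
    ((Subalgebra.equivOfEq _ _ hgen).trans Subalgebra.topEquiv)).finrank, PowerBasis.map_dim,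
    Algebra.adjoin.powerBasis_dim, minpoly_unramified hf hirr L x₀ hx₀, hf.natDegree_map]

omit [IsAdicComplete (maximalIdeal O) O] [Finite (ResidueField O)] in
theorem unramified_embedding_injective :
    Function.Injective (AdjoinRoot.liftAlgHom f (Algebra.ofId O L) x₀ hx₀) := by
  have := hgen
  rw [injective_iff_map_eq_zero]
  intro b hb
  obtain ⟨g, rfl⟩ := AdjoinRoot.mk_surjective b
  rw [AdjoinRoot.liftAlgHom_mk] at hb
  rw [AdjoinRoot.mk_eq_zero, ← Polynomial.map_dvd_map (algebraMap O K)
    (IsFractionRing.injective O K) hf, ← minpoly_unramified hf hirr L x₀ hx₀,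
    minpoly.dvd_iff, aeval_map_algebraMap]
  exact hb

omit [Finite (ResidueField O)] in
/-- **Norms from the unramified extension** are units times powers of `π ^ m`. -/
theorem exists_norm_unramified (hπ : Irreducible π) {z : L} (hz : z ≠ 0) :
    ∃ (j : ℤ) (u : Oˣ), Algebra.norm K z =
      (algebraMap O K π ^ f.natDegree) ^ j * algebraMap O K u := by
  have hfd := finiteDimensional_unramified hf L x₀ hx₀ hgen
  have hfin := hf.finite_adjoinRoot
  set ι := AdjoinRoot.liftAlgHom f (Algebra.ofId O L) x₀ hx₀
  have hιinj := unramified_embedding_injective hf hirr L x₀ hx₀ hgen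
  -- clear denominators
  obtain ⟨c, hc, b, hcb⟩ : ∃ c : O, c ≠ 0 ∧ ∃ b, algebraMap O L c * z = ι b := by
    have hz' : z ∈ Algebra.adjoin K {x₀} := by rw [hgen]; trivial
    rw [Algebra.adjoin_singleton_eq_range_aeval] at hz'
    obtain ⟨P, rfl⟩ := hz'
    obtain ⟨c, hc, hcP⟩ := IsLocalization.integerNormalization_spec (nonZeroDivisors O) P
    refine ⟨c, nonZeroDivisors.ne_zero hc,
      AdjoinRoot.mk f (IsLocalization.integerNormalization (nonZeroDivisors O) P), ?_⟩
    rw [AdjoinRoot.liftAlgHom_mk]
    change algebraMap O L c * aeval x₀ P =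
      aeval x₀ (IsLocalization.integerNormalization (nonZeroDivisors O) P)
    rw [← aeval_map_algebraMap K x₀ (IsLocalization.integerNormalization _ P), hcP]
    simp [← IsScalarTower.algebraMap_smul K c P, Algebra.smul_def,
      IsScalarTower.algebraMap_apply O K L]
  have hc' : algebraMap O L c ≠ 0 := by
    rw [IsScalarTower.algebraMap_apply O K L]
    exact (_root_.map_ne_zero _).2 ((map_ne_zero_iff _ (IsFractionRing.injective O K)).2 hc)
  have hb : b ≠ 0 := fun h => mul_ne_zero hc' hz (by rw [hcb, h, map_zero])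
  obtain ⟨j, w, hw, rfl⟩ := exists_pow_mul_unit hf hirr hπ hb
  obtain ⟨t, v, hcv⟩ := IsDiscreteValuationRing.eq_unit_mul_pow_irreducible hc hπ
  -- the norm of a unit
  have hnorm : ∀ y : AdjoinRoot f, ∃ a : O, algebraMap O K a = Algebra.norm K (ι y) := fun y =>
    IsIntegrallyClosed.isIntegral_iff.1 (Algebra.isIntegral_norm K
      ((Algebra.IsIntegral.isIntegral y).map ι))
  obtain ⟨w', hww'⟩ := hw.exists_right_inv
  obtain ⟨a, ha⟩ := hnorm w
  obtain ⟨a', ha'⟩ := hnorm w'
  have haa' : a * a' = 1 := IsFractionRing.injective O K (by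
    rw [map_mul, ha, ha', ← map_mul, ← map_mul, hww', map_one, map_one, map_one])
  refine ⟨(j : ℤ) - t, Units.mkOfMulEqOne a a' haa' * (v⁻¹) ^ f.natDegree, ?_⟩
  have hπ0 : algebraMap O K π ≠ 0 :=
    (map_ne_zero_iff _ (IsFractionRing.injective O K)).2 hπ.ne_zero
  have hv0 : algebraMap O K (v : O) ≠ 0 :=
    (map_ne_zero_iff _ (IsFractionRing.injective O K)).2 v.ne_zero
  have hd := finrank_unramified hf hirr L x₀ hx₀ hgen
  have h := congrArg (Algebra.norm K) hcb
  rw [map_mul, map_mul ι, map_mul, map_pow, AlgHom.commutes, map_pow, ← ha,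
    IsScalarTower.algebraMap_apply O K L, IsScalarTower.algebraMap_apply O K L π,
    Algebra.norm_algebraMap, Algebra.norm_algebraMap, hd, hcv] at h
  rw [map_mul, map_pow] at h
  have hvinv : algebraMap O K ((v⁻¹ : Oˣ) : O) = (algebraMap O K (v : O))⁻¹ := by
    refine eq_inv_of_mul_eq_one_left ?_
    rw [← map_mul, Units.inv_mul, map_one]
  rw [Units.val_mul, Units.val_mkOfMulEqOne, Units.val_pow_eq_pow_val, map_mul, map_pow, hvinv,
    zpow_sub₀ (pow_ne_zero _ hπ0), zpow_natCast, zpow_natCast, inv_pow]
  field_simp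
  linear_combination h

/-- **The unramified extension of degree `m` is cyclotomic of level `q ^ m - 1`.** -/
theorem isCyclotomicExtension_unramified (hπ : Irreducible π) :
    IsCyclotomicExtension {residueCard O ^ f.natDegree - 1} K L := by
  have := isAdicComplete_span_algebraMap hπ (AdjoinRoot.powerBasis' hf).basis
  have hfin := hf.finite_adjoinRoot
  have := Fact.mk hirr
  set k' := AdjoinRoot (f.map (residue O))
  have hmk : (f.map (residue O)).Monic := hf.map _
  have hkfin : Module.Finite (ResidueField O) k' := hmk.finite_adjoinRoot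
  have : Finite k' := Module.finite_of_finite (ResidueField O)
  set N := residueCard O ^ f.natDegree - 1
  have hm := natDegree_pos_of_irreducible hf hirr
  have hq := (isLubinTateBase hπ).two_le
  have hQ : 2 ≤ residueCard O ^ f.natDegree := hq.trans (Nat.le_self_pow hm.ne' _)
  have hN : NeZero N := ⟨by omega⟩
  have hcard : Nat.card k' = residueCard O ^ f.natDegree := by
    rw [Module.natCard_eq_pow_finrank (K := ResidueField O), residueCard,
      (AdjoinRoot.powerBasis' hmk).finrank, AdjoinRoot.powerBasis'_dim, hf.natDegree_map]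
  obtain ⟨g₀, hg₀⟩ := IsCyclic.exists_generator (α := k'ˣ)
  have hord : orderOf g₀ = N := by
    rw [orderOf_eq_card_of_forall_mem_zpowers hg₀, Nat.card_units, hcard]
  -- lift the generator
  obtain ⟨a₀, ha₀⟩ := residueMap_surjective f (g₀ : k')
  set J := Ideal.span {algebraMap O (AdjoinRoot f) π}
  have hN0 : residueMap f (N : AdjoinRoot f) ≠ 0 := by
    rw [map_natCast, Nat.cast_sub (by omega)]
    have hz : ((residueCard O ^ f.natDegree : ℕ) : k') = 0 := by
      obtain ⟨p, r, hp, hr, hq', -⟩ := (isLubinTateBase hπ).exists_prime_pow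
      have := charP_residueField hp hq'
      have hpk : ((p : ℕ) : k') = 0 := by
        rw [← map_natCast (algebraMap (ResidueField O) k'), CharP.cast_eq_zero, map_zero]
      rw [hq', Nat.cast_pow, Nat.cast_pow, hpk, zero_pow (by omega), zero_pow hm.ne']
    rw [hz, zero_sub, Nat.cast_one]
    exact neg_ne_zero.2 one_ne_zero
  obtain ⟨a, ha, hmod⟩ := HenselianRing.is_henselian (I := J)
    (X ^ N - 1 : (AdjoinRoot f)[X]) (monic_X_pow_sub_C 1 hN.out) a₀
    (by
      rw [← ker_residueMap f hπ]
      simp only [eval_sub, eval_pow, eval_X, eval_one, map_sub, map_pow, ha₀, map_one]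
      rw [← Units.val_pow_eq_pow_val, ← hord, pow_orderOf_eq_one, Units.val_one, sub_self])
    (by
      refine (isUnit_of_residueMap_ne_zero hf hirr hπ ?_).map _
      simp only [derivative_sub, derivative_X_pow, derivative_one, sub_zero, eval_mul, eval_pow,
        eval_X, map_mul, map_pow, ha₀, eval_C]
      exact mul_ne_zero hN0 (pow_ne_zero _ g₀.ne_zero))
  have ha1 : a ^ N = 1 := by
    rw [IsRoot.def, eval_sub, eval_pow, eval_X, eval_one, sub_eq_zero] at ha
    exact ha
  have hared : residueMap f a = g₀ := by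
    rw [← ha₀, ← sub_eq_zero, ← map_sub, ker_residueMap f hπ]
    exact hmod
  have hιinj := unramified_embedding_injective hf hirr L x₀ hx₀ hgen
  set ι := AdjoinRoot.liftAlgHom f (Algebra.ofId O L) x₀ hx₀
  have hprim : IsPrimitiveRoot (ι a) N := by
    refine ⟨by rw [← map_pow, ha1, map_one], fun l hl => ?_⟩
    rw [← map_pow, ← map_one ι] at hl
    have h := congrArg (residueMap f) (hιinj hl)
    rw [map_pow, map_one, hared, ← Units.val_pow_eq_pow_val, ← Units.val_one] at h
    rw [← hord]
    exact orderOf_dvd_of_pow_eq_one (Units.ext h)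
  -- the root of unity generates
  have hint : IsIntegral O (ι a) := (Algebra.IsIntegral.isIntegral a).map ι
  have hfd := finiteDimensional_unramified hf L x₀ hx₀ hgen
  have hgenk : IntermediateField.adjoin (ResidueField O) {(g₀ : k')} = ⊤ := by
    refine eq_top_iff.2 fun y _ => ?_
    rcases eq_or_ne y 0 with rfl | hy
    · exact zero_mem _
    · obtain ⟨l, hl⟩ := hg₀ (Units.mk0 y hy)
      rw [← Units.val_mk0 hy, ← hl, Units.val_zpow_eq_zpow_val]
      exact zpow_mem (IntermediateField.mem_adjoin_simple_self _ _) l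
  have hdeg : f.natDegree ≤ (minpoly O (ι a)).natDegree := by
    have hz : aeval a (minpoly O (ι a)) = 0 :=
      hιinj (by rw [← aeval_algHom_apply, minpoly.aeval, map_zero])
    have hk : aeval (g₀ : k') ((minpoly O (ι a)).map (residue O)) = 0 := by
      have h := congrArg (residueMap f) hz
      rw [map_zero, aeval_def, hom_eval₂, hared] at h
      rw [aeval_def, eval₂_map, ← h]
      congr 1
      ext c
      simp [residueMap, AdjoinRoot.algebraMap_eq]
      rfl
    have hint' : IsIntegral (ResidueField O) (g₀ : k') := Algebra.IsIntegral.isIntegral _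
    have h1 : (minpoly (ResidueField O) (g₀ : k')).natDegree = f.natDegree := by
      rw [← IntermediateField.adjoin.finrank hint', hgenk, IntermediateField.finrank_top',
        (AdjoinRoot.powerBasis' hmk).finrank, AdjoinRoot.powerBasis'_dim, hf.natDegree_map]
    rw [← h1, ← (minpoly.monic hint).natDegree_map (residue O)]
    exact natDegree_le_of_dvd (minpoly.dvd _ _ hk) ((minpoly.monic hint).map _).ne_zero
  have htop : IntermediateField.adjoin K {ι a} = ⊤ := by
    refine IntermediateField.eq_of_le_of_finrank_le le_top ?_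
    rw [IntermediateField.finrank_top', finrank_unramified hf hirr L x₀ hx₀ hgen,
      IntermediateField.adjoin.finrank hint.tower_top,
      minpoly.isIntegrallyClosed_eq_field_fractions' K hint, (minpoly.monic hint).natDegree_map]
    exact hdeg
  rw [IsCyclotomicExtension.iff_singleton]
  refine ⟨⟨_, hprim⟩, fun y => Algebra.adjoin_mono (s := {ι a}) ?_ ?_⟩
  · exact Set.singleton_subset_iff.2 hprim.pow_eq_one
  · rw [← IntermediateField.adjoin_simple_toSubalgebra_of_isAlgebraic
      (Algebra.IsAlgebraic.isAlgebraic (R := K) (ι a)), htop]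
    trivial

end Residue

end Fermat.Agent.LubinTate
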