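import Fermat.Agent.IdeleClass.Compact
import Fermat.Agent.LocalCFT.NormIndex
import Fermat.Agent.LubinTate.Explicit.Unramified
import Mathlib.Topology.Algebra.Ring.Compact

/-!
# Norm groups over the completions of number fields

Local class field theory turns the inclusions into equalities: the norm group of the level `n`
torsion field is `⟨π⟩ × U ^ (n)` and that of the unramified extension of degree `m` is
`⟨π ^ m⟩ × U`.
-/

set_option autoImplicit false

noncomputable section

open NumberField IsDedekindDomain IsLocalRing WithZero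
open FA.LocalCFT
open scoped Pointwise

namespace Fermat.Agent.LubinTate

/-- A compact Hausdorff noetherian local ring is complete. -/
theorem isAdicComplete_of_compactSpace (R : Type*) [CommRing R] [TopologicalSpace R]
    [IsTopologicalRing R] [CompactSpace R] [T2Space R] [IsNoetherianRing R] [IsLocalRing R] :
    IsAdicComplete (maximalIdeal R) R := by
  refine { toIsHausdorff := IsHausdorff.of_isLocalRing (maximalIdeal R) R
             (maximalIdeal.isMaximal R).ne_top, toIsPrecomplete := ⟨fun f hf => ?_⟩ }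
  let S : ℕ → Set R := fun n => f n +ᵥ ((maximalIdeal R ^ n : Ideal R) : Set R)
  have hS : ∀ n, S (n + 1) ⊆ S n := fun n => by
    apply (Set.vadd_set_subset_vadd_set_iff.mpr (Ideal.pow_le_pow_right n.le_succ)).trans
    simpa [S, SModEq.sub_mem] using (hf n.le_succ).symm
  have hcl : ∀ n, IsClosed (S n) := fun n =>
    (IsNoetherianRing.isClosed_ideal (maximalIdeal R ^ n)).vadd (f n)
  obtain ⟨L, hL⟩ := (hcl 0).isCompact.nonempty_iInter_of_sequence_nonempty_isCompact_isClosed S hS
    (fun n => (Submodule.nonempty _).vadd_set) hcl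
  refine ⟨L, fun n => ?_⟩
  obtain ⟨y, hy, rfl⟩ := Set.mem_iInter.mp hL n
  simpa [SModEq.sub_mem] using hy

/-- Equal subgroups from an inclusion and equal index. -/
theorem subgroup_eq_of_le_of_index_eq {G : Type*} [Group G] {H H' : Subgroup G} (h : H ≤ H')
    (h0 : H'.index ≠ 0) (hi : H.index = H'.index) : H = H' := by
  refine le_antisymm h (Subgroup.relIndex_eq_one.1 ?_)
  have h1 := Subgroup.relIndex_mul_index h
  rw [hi] at h1
  exact (mul_eq_right₀ h0).1 h1

section Generic

variable {O : Type*} [CommRing O] [IsDomain O] [IsDiscreteValuationRing O] {π : O}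
  {K : Type*} [Field K] [Algebra O K] [IsFractionRing O K] {πK : Kˣ}

omit [IsDomain O] [IsDiscreteValuationRing O] [IsFractionRing O K] in
theorem mem_normTarget_zero {H : Kˣ} {z : Kˣ} : z ∈ normTarget π H 0 ↔
    ∃ (j : ℤ) (u : Oˣ), z = H ^ j * Units.map (algebraMap O K).toMonoidHom u := by
  rw [mem_normTarget]
  refine ⟨fun ⟨j, u, _, h⟩ => ⟨j, u, h⟩, fun ⟨j, u, h⟩ => ⟨j, u, ?_, h⟩⟩
  rw [pow_zero, Ideal.span_singleton_one]
  trivial

variable (hπ : Irreducible π) (hπK : (πK : K) = algebraMap O K π)
include hπ hπK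

/-- `⟨π ^ m⟩ × U` has index `m`. -/
theorem index_normTarget_zero {m : ℕ} (hm : 0 < m) :
    (normTarget π (πK ^ m) 0).index = m := by
  set g : Kˣ ⧸ normTarget π (πK ^ m) 0 := QuotientGroup.mk πK with hg
  have hgen : ∀ x, x ∈ Subgroup.zpowers g := by
    intro x
    obtain ⟨z, rfl⟩ := QuotientGroup.mk_surjective x
    obtain ⟨j, u, rfl⟩ := exists_zpow_mul_unit hπ hπK z
    refine ⟨j, ?_⟩
    simp only [hg, ← QuotientGroup.mk_zpow]
    rw [QuotientGroup.eq, inv_mul_cancel_left]
    exact mem_normTarget_zero.2 ⟨0, u, by rw [zpow_zero, one_mul]⟩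
  rw [Subgroup.index, ← orderOf_eq_card_of_forall_mem_zpowers hgen, orderOf_eq_iff hm]
  constructor
  · rw [hg, ← QuotientGroup.mk_pow, QuotientGroup.eq_one_iff]
    exact mem_normTarget_zero.2 ⟨1, 1, by rw [map_one, mul_one, zpow_one]⟩
  · intro j hj hj0 h
    rw [hg, ← QuotientGroup.mk_pow, QuotientGroup.eq_one_iff, mem_normTarget_zero] at h
    obtain ⟨t, u, h⟩ := h
    have h' : πK ^ ((j : ℤ) - m * t) = Units.map (algebraMap O K).toMonoidHom u := by
      rw [zpow_sub, zpow_natCast, h, ← zpow_natCast πK m, ← zpow_mul, mul_inv_cancel_comm]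
    have h0 : (j : ℤ) = m * t := sub_eq_zero.1 (zpow_ne_unit hπ hπK h')
    have ht : 0 < t := (mul_pos_iff_of_pos_left (by omega : (0 : ℤ) < m)).1 (by omega)
    nlinarith

omit [IsDomain O] [IsDiscreteValuationRing O] in
/-- Both conditions together. -/
theorem inf_normTarget {m : ℕ} (n : ℕ) :
    normTarget π πK n ⊓ normTarget π (πK ^ m) 0 = normTarget π (πK ^ m) n := by
  ext z
  rw [Subgroup.mem_inf, mem_normTarget, mem_normTarget_zero, mem_normTarget]
  constructor
  · rintro ⟨⟨a, u, hu, rfl⟩, t, w, h⟩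
    refine ⟨t, u, hu, ?_⟩
    have h' : πK ^ (a - m * t) = Units.map (algebraMap O K).toMonoidHom (w * u⁻¹) := by
      rw [zpow_sub, zpow_mul, zpow_natCast, map_mul, map_inv]
      calc πK ^ a * ((πK ^ m) ^ t)⁻¹
          = (πK ^ a * Units.map (algebraMap O K).toMonoidHom u) *
              (Units.map (algebraMap O K).toMonoidHom u)⁻¹ * ((πK ^ m) ^ t)⁻¹ := by
            rw [mul_inv_cancel_right]
        _ = _ := by
            rw [h, mul_assoc ((πK ^ m) ^ t), mul_comm ((πK ^ m) ^ t), mul_inv_cancel_right]
    rw [sub_eq_zero.1 (zpow_ne_unit hπ hπK h'), zpow_mul, zpow_natCast]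
  · rintro ⟨t, u, hu, rfl⟩
    exact ⟨⟨m * t, u, hu, by rw [zpow_mul, zpow_natCast]⟩, t, u, rfl⟩

omit hπK
variable [IsAdicComplete (maximalIdeal O) O] [Finite (ResidueField O)] (k : ℕ) {L : Type*}
  [Field L] [Algebra K L] [Algebra O L] [IsScalarTower O K L] {lam : L}

/-- The torsion extensions are abelian. -/
theorem isAbelianGalois_torsion (hlam : IsTorsionGenerator K π k lam) : IsAbelianGalois K L := by
  obtain ⟨hgal, e, -⟩ := galois_torsion hπ k hlam
  have := hgal
  exact { is_comm := ⟨fun σ τ => e.symm.injective (by rw [map_mul, map_mul, mul_comm])⟩ }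

end Generic

universe u

variable {K : Type u} [Field K] [NumberField K] (v : HeightOneSpectrum (𝓞 K))

instance isAdicComplete_adicCompletionIntegers :
    IsAdicComplete (maximalIdeal (v.adicCompletionIntegers K)) (v.adicCompletionIntegers K) :=
  isAdicComplete_of_compactSpace _

variable {v} {π : v.adicCompletionIntegers K} (hπ : Irreducible π) {πK : (v.adicCompletion K)ˣ}
  (hπK : (πK : v.adicCompletion K) = algebraMap _ (v.adicCompletion K) π)
include hπ

/-- A uniformizer has valuation at most `exp (-1)`. -/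
theorem valued_uniformizer_le :
    Valued.v (π : v.adicCompletion K) ≤ exp (-1 : ℤ) := by
  have h1 : Valued.v (π : v.adicCompletion K) < 1 :=
    lt_of_le_of_ne ((HeightOneSpectrum.mem_adicCompletionIntegers (𝓞 K) K v).1 π.2) fun h =>
      hπ.not_isUnit (HeightOneSpectrum.adicCompletionIntegers.isUnit_iff_valued_eq_one.2 h)
  have h0 : Valued.v (π : v.adicCompletion K) ≠ 0 := by
    rw [Valuation.ne_zero_iff]
    exact fun h => hπ.ne_zero (Subtype.ext h)
  rw [← exp_log h0, exp_le_exp]
  rw [← exp_log h0, ← exp_zero, exp_lt_exp] at h1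
  omega

/-- An open subgroup contains higher units. -/
theorem exists_higherUnits_le {H : Subgroup (v.adicCompletion K)ˣ}
    (hH : IsOpen (H : Set (v.adicCompletion K)ˣ)) :
    ∃ k : ℕ, ∀ u : (v.adicCompletionIntegers K)ˣ, (u : v.adicCompletionIntegers K) - 1 ∈
        Ideal.span {π ^ (k + 1)} →
      Units.map (algebraMap (v.adicCompletionIntegers K) (v.adicCompletion K)).toMonoidHom u ∈
        H := by
  obtain ⟨U, hU, hUH⟩ := (Units.isEmbedding_val₀ (G₀ := v.adicCompletion K)).isOpen_iff.1 hH
  have h1 : (1 : v.adicCompletion K) ∈ U := by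
    have h := H.one_mem
    rw [← SetLike.mem_coe, ← hUH] at h
    exact h
  obtain ⟨k, hk⟩ := FA.QuadFormsNF.exists_exp_subset v (z := (1 : v.adicCompletion K))
    (hU.mem_nhds h1)
  refine ⟨k, fun u hu => ?_⟩
  rw [← SetLike.mem_coe, ← hUH]
  refine hk _ ?_
  obtain ⟨c, hc⟩ := Ideal.mem_span_singleton'.1 hu
  have hcast : (algebraMap (v.adicCompletionIntegers K) (v.adicCompletion K)
      (u : v.adicCompletionIntegers K)) - 1 = (c : v.adicCompletion K) *
        (π : v.adicCompletion K) ^ (k + 1) := by
    rw [← map_one (algebraMap (v.adicCompletionIntegers K) (v.adicCompletion K)), ← map_sub, ← hc]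
    rfl
  change Valued.v (algebraMap (v.adicCompletionIntegers K) (v.adicCompletion K)
      (u : v.adicCompletionIntegers K) - 1) ≤ _
  rw [hcast, map_mul, map_pow]
  refine (mul_le_mul' ((HeightOneSpectrum.mem_adicCompletionIntegers (𝓞 K) K v).1 c.2)
    (pow_le_pow_left' (valued_uniformizer_le hπ) _)).trans ?_
  rw [one_mul, ← exp_nsmul, exp_le_exp, nsmul_eq_mul]
  omega

include hπK
variable (k : ℕ) {L : Type*} [Field L] [Algebra (v.adicCompletion K) L]
  [Algebra (v.adicCompletionIntegers K) L]
  [IsScalarTower (v.adicCompletionIntegers K) (v.adicCompletion K) L]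

/-- **The norm group of the torsion field.** -/
theorem normGroup_torsion {lam : L} (hlam : IsTorsionGenerator (v.adicCompletion K) π k lam) :
    normGroup (v.adicCompletion K) L = normTarget π πK (k + 1) := by
  have := isAbelianGalois_torsion hπ k hlam
  have := finiteDimensional hπ k hlam
  exact normGroup_eq_normTarget hπ hπK k hlam (index_normGroup_abelian v L)

/-- **The norm group of the unramified extension of degree `m`.** -/
theorem normGroup_unramified {m : ℕ} (hm : 0 < m) (F : Type u) [Field F]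
    [Algebra (v.adicCompletion K) F]
    [IsCyclotomicExtension {residueCard (v.adicCompletionIntegers K) ^ m - 1}
      (v.adicCompletion K) F] :
    normGroup (v.adicCompletion K) F = normTarget π (πK ^ m) 0 ∧
      Module.finrank (v.adicCompletion K) F = m := by
  obtain ⟨f₀, hf₀, hirr, hdeg⟩ :=
    exists_irreducible_natDegree (ResidueField (v.adicCompletionIntegers K)) hm
  obtain ⟨f, hmap, hd, hf⟩ := Polynomial.lifts_and_degree_eq_and_monic
    (Polynomial.map_surjective _ IsLocalRing.residue_surjective f₀) hf₀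
  rw [← hmap] at hirr
  have hnd : f.natDegree = m := (Polynomial.natDegree_eq_of_degree_eq hd).trans hdeg
  set fK := f.map (algebraMap (v.adicCompletionIntegers K) (v.adicCompletion K))
  have hK : Irreducible fK := (Polynomial.Monic.irreducible_iff_irreducible_map_fraction_map hf).1
    (Polynomial.Monic.irreducible_of_irreducible_map _ f hf hirr)
  have := Fact.mk hK
  have hx₀ : Polynomial.aeval (AdjoinRoot.root fK) f = 0 := by
    rw [← Polynomial.aeval_map_algebraMap (v.adicCompletion K), AdjoinRoot.aeval_eq,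
      AdjoinRoot.mk_self]
  have hcyc := isCyclotomicExtension_unramified hf hirr (AdjoinRoot fK) (AdjoinRoot.root fK) hx₀
    AdjoinRoot.adjoinRoot_eq_top hπ
  rw [hnd] at hcyc
  have hN : NeZero (residueCard (v.adicCompletionIntegers K) ^ m - 1) := by
    have h2 := (isLubinTateBase hπ).two_le
    have := Nat.le_self_pow hm.ne' (residueCard (v.adicCompletionIntegers K))
    exact ⟨by omega⟩
  let e := IsCyclotomicExtension.algEquiv
    {residueCard (v.adicCompletionIntegers K) ^ m - 1} (v.adicCompletion K) F (AdjoinRoot fK)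
  have hrank : Module.finrank (v.adicCompletion K) (AdjoinRoot fK) = m := by
    rw [finrank_unramified hf hirr (AdjoinRoot fK) _ hx₀ AdjoinRoot.adjoinRoot_eq_top, hnd]
  have hfd : FiniteDimensional (v.adicCompletion K) (AdjoinRoot fK) :=
    finiteDimensional_unramified hf (AdjoinRoot fK) _ hx₀ AdjoinRoot.adjoinRoot_eq_top
  have hab := IsCyclotomicExtension.isAbelianGalois
    {residueCard (v.adicCompletionIntegers K) ^ m - 1} (v.adicCompletion K) (AdjoinRoot fK)
  have hle : normGroup (v.adicCompletion K) (AdjoinRoot fK) ≤ normTarget π (πK ^ m) 0 := by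
    rintro _ ⟨z, rfl⟩
    obtain ⟨j, u, hj⟩ := exists_norm_unramified hf hirr (AdjoinRoot fK) (AdjoinRoot.root fK) hx₀
      AdjoinRoot.adjoinRoot_eq_top hπ (z := (z : AdjoinRoot fK)) z.ne_zero
    refine mem_normTarget_zero.2 ⟨j, u, Units.ext ?_⟩
    rw [hnd] at hj
    simp only [Units.coe_map, Units.val_mul, Units.val_zpow_eq_zpow_val, Units.val_pow_eq_pow_val,
      hπK]
    exact hj
  rw [normGroup_congr e, e.toLinearEquiv.finrank_eq]
  refine ⟨subgroup_eq_of_le_of_index_eq hle ?_ ?_, hrank⟩
  · rw [index_normTarget_zero hπ hπK hm]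
    omega
  · rw [index_normGroup_abelian v (AdjoinRoot fK), hrank, index_normTarget_zero hπ hπK hm]

end Fermat.Agent.LubinTate
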