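import Fermat.Agent.LubinTate.Explicit.Completion
import Fermat.Agent.Root.SummaryLocalClassField
import Fermat.Agent.LocalCFT.MaximalAbelian

/-!
# The explicit local theorem of Kronecker and Weber

Over a completion of a number field every finite abelian extension lies in the field of some
`π ^ n`-torsion and roots of unity of order `q ^ m - 1`, whose norm group is `⟨π ^ m⟩ × U ^ (n)`.
-/

set_option autoImplicit false

noncomputable section

open NumberField IsDedekindDomain IsLocalRing Polynomial
open FA.LocalCFT

namespace Fermat.Agent.LubinTate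

universe u

attribute [local instance] FA.QuadFormsNF.charZero_completion

variable {K : Type u} [Field K] [NumberField K] {v : HeightOneSpectrum (𝓞 K)}

/-- The product of the torsion polynomial and `X ^ (q ^ m - 1) - 1`. -/
def explicitPoly (π : v.adicCompletionIntegers K) (m k : ℕ) : (v.adicCompletion K)[X] :=
  (iterPoly π (residueCard (v.adicCompletionIntegers K)) (k + 1)).map
      (algebraMap (v.adicCompletionIntegers K) (v.adicCompletion K)) *
    (X ^ (residueCard (v.adicCompletionIntegers K) ^ m - 1) - 1)

variable {π : v.adicCompletionIntegers K} (hπ : Irreducible π)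
include hπ

theorem explicitPoly_ne_zero {m : ℕ} (hm : 0 < m) (k : ℕ) : explicitPoly π m k ≠ 0 := by
  have hq := (isLubinTateBase hπ).two_le
  have := Nat.le_self_pow hm.ne' (residueCard (v.adicCompletionIntegers K))
  exact mul_ne_zero ((monic_iterPoly hq (k + 1)).1.map _).ne_zero
    (X_pow_sub_C_ne_zero (by omega) 1)

variable {πK : (v.adicCompletion K)ˣ}
  (hπK : (πK : v.adicCompletion K) = algebraMap _ (v.adicCompletion K) π)
include hπK

/-- The explicit abelian extension and its norm group. -/
theorem normGroup_explicit {m : ℕ} (hm : 0 < m) (k : ℕ) :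
    IsAbelianGalois (v.adicCompletion K) (explicitPoly π m k).SplittingField ∧
      normGroup (v.adicCompletion K) (explicitPoly π m k).SplittingField =
        normTarget π (πK ^ m) (k + 1) := by
  set q := residueCard (v.adicCompletionIntegers K) with hqdef
  have hq := (isLubinTateBase hπ).two_le
  have hN : NeZero (q ^ m - 1) := ⟨by have := Nat.le_self_pow hm.ne' q; omega⟩
  set g := (iterPoly π q (k + 1)).map
    (algebraMap (v.adicCompletionIntegers K) (v.adicCompletion K)) with hg
  set h : (v.adicCompletion K)[X] := X ^ (q ^ m - 1) - 1 with hh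
  let L := g.SplittingField
  let F : Type u := CyclotomicField (q ^ m - 1) (v.adicCompletion K)
  obtain ⟨lam, hlam⟩ := exists_torsionGenerator (K := v.adicCompletion K) k hπ
  have hL : normGroup (v.adicCompletion K) L = normTarget π πK (k + 1) :=
    normGroup_torsion hπ hπK k hlam
  have hF : normGroup (v.adicCompletion K) F = normTarget π (πK ^ m) 0 :=
    (normGroup_unramified hπ hπK hm F).1
  have habL : IsAbelianGalois (v.adicCompletion K) L := isAbelianGalois_torsion hπ k hlam
  have hFfin : FiniteDimensional (v.adicCompletion K) F :=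
    IsCyclotomicExtension.finiteDimensional {q ^ m - 1} (v.adicCompletion K) F
  have habF : IsAbelianGalois (v.adicCompletion K) F :=
    IsCyclotomicExtension.isAbelianGalois {q ^ m - 1} (v.adicCompletion K) F
  have hFs : h.IsSplittingField (v.adicCompletion K) F :=
    IsCyclotomicExtension.isSplittingField_X_pow_sub_one (q ^ m - 1) (v.adicCompletion K) F
  set C := (explicitPoly π m k).SplittingField
  have hC : ((explicitPoly π m k).map (algebraMap (v.adicCompletion K) C)).Splits :=
    SplittingField.splits _
  have hne : (explicitPoly π m k).map (algebraMap (v.adicCompletion K) C) ≠ 0 :=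
    map_ne_zero (explicitPoly_ne_zero hπ hm k)
  let φL : L →ₐ[v.adicCompletion K] C := SplittingField.lift g
    (hC.of_dvd hne (Polynomial.map_dvd _ (dvd_mul_right _ _)))
  let φF : F →ₐ[v.adicCompletion K] C := IsSplittingField.lift F h
    (hC.of_dvd hne (Polynomial.map_dvd _ (dvd_mul_left _ _)))
  have hle : normGroup (v.adicCompletion K) C ≤ normTarget π (πK ^ m) (k + 1) := by
    rw [← inf_normTarget hπ hπK, ← hL, ← hF]
    exact le_inf (normGroup_le_of_algHom φL) (normGroup_le_of_algHom φF)
  -- the class field of that subgroup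
  have hT : normTarget π (πK ^ m) (k + 1) =
      normGroup (v.adicCompletion K) L ⊓ normGroup (v.adicCompletion K) F := by
    rw [hL, hF, inf_normTarget hπ hπK]
  have hopen : IsOpen (normTarget π (πK ^ m) (k + 1) : Set (v.adicCompletion K)ˣ) := by
    rw [hT, Subgroup.coe_inf]
    exact (isOpen_normGroup v L).inter (isOpen_normGroup v F)
  have hidx : (normTarget π (πK ^ m) (k + 1)).index ≠ 0 := by
    rw [hT]
    exact Subgroup.index_inf_ne_zero (abelian_facts v L).1 (abelian_facts v F).1
  obtain ⟨A, i1, i2, i3, i4, i5, hA⟩ :=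
    (FA.Summary.local_abelian_classification v _).1 ⟨hopen, hidx⟩
  have hA' : normGroup (v.adicCompletion K) A = normTarget π (πK ^ m) (k + 1) := hA
  obtain ⟨ψL⟩ := nonempty_algHom_of_normGroup_le v A L
    (by rw [hA', hL, ← inf_normTarget hπ hπK (m := m)]; exact inf_le_left)
  obtain ⟨ψF⟩ := nonempty_algHom_of_normGroup_le v A F
    (by rw [hA', hF, ← inf_normTarget hπ hπK (m := m) (k + 1)]; exact inf_le_right)
  have hsplit : ((explicitPoly π m k).map (algebraMap (v.adicCompletion K) A)).Splits := by
    rw [explicitPoly, Polynomial.map_mul]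
    refine Splits.mul ?_ ?_
    · have h1 := (SplittingField.splits g).map ψL.toRingHom
      rwa [Polynomial.map_map, AlgHom.toRingHom_eq_coe, AlgHom.comp_algebraMap] at h1
    · have h1 := hFs.splits'.map ψF.toRingHom
      rwa [Polynomial.map_map, AlgHom.toRingHom_eq_coe, AlgHom.comp_algebraMap] at h1
  let ψC : C →ₐ[v.adicCompletion K] A := SplittingField.lift _ hsplit
  have hab : IsAbelianGalois (v.adicCompletion K) A := ⟨⟩
  exact ⟨IsAbelianGalois.of_algHom ψC,
    le_antisymm hle (hA'.symm.trans_le (normGroup_le_of_algHom ψC))⟩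

/-- **Local Kronecker–Weber**: every finite abelian extension lies in an explicit one. -/
theorem exists_algHom_explicit (E : Type*) [Field E] [Algebra (v.adicCompletion K) E]
    [FiniteDimensional (v.adicCompletion K) E] [IsAbelianGalois (v.adicCompletion K) E] :
    ∃ m k : ℕ, 0 < m ∧
      Nonempty (E →ₐ[v.adicCompletion K] (explicitPoly π m k).SplittingField) := by
  set H := normGroup (v.adicCompletion K) E with hH
  have hidx : H.index ≠ 0 := (abelian_facts v E).1
  obtain ⟨k, hk⟩ := exists_higherUnits_le hπ (isOpen_normGroup v E)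
  refine ⟨H.index, k, Nat.pos_of_ne_zero hidx,
    nonempty_algHom_of_normGroup_le v _ E ?_⟩
  rw [(normGroup_explicit hπ hπK (Nat.pos_of_ne_zero hidx) k).2]
  intro z hz
  obtain ⟨j, u, hu, rfl⟩ := mem_normTarget.1 hz
  exact mul_mem (zpow_mem (Subgroup.pow_index_mem H πK) j) (hk u hu)

/-- **The maximal abelian extension** is generated by the torsion of the group of Lubin and Tate
and the roots of unity of order prime to the residue characteristic. -/
theorem abClosure_explicit :
    abClosure (v.adicCompletion K) = IntermediateField.adjoin (v.adicCompletion K)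
      {x : AlgebraicClosure (v.adicCompletion K) |
        (∃ k : ℕ, aeval x ((iterPoly π (residueCard (v.adicCompletionIntegers K)) (k + 1)).map
          (algebraMap (v.adicCompletionIntegers K) (v.adicCompletion K))) = 0) ∨
        ∃ m : ℕ, 0 < m ∧ x ^ (residueCard (v.adicCompletionIntegers K) ^ m - 1) = 1} := by
  set S := {x : AlgebraicClosure (v.adicCompletion K) |
    (∃ k : ℕ, aeval x ((iterPoly π (residueCard (v.adicCompletionIntegers K)) (k + 1)).map
      (algebraMap (v.adicCompletionIntegers K) (v.adicCompletion K))) = 0) ∨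
    ∃ m : ℕ, 0 < m ∧ x ^ (residueCard (v.adicCompletionIntegers K) ^ m - 1) = 1}
  have hrange : ∀ {m k : ℕ},
      ∀ ι : (explicitPoly π m k).SplittingField →ₐ[v.adicCompletion K]
        AlgebraicClosure (v.adicCompletion K),
      ι.fieldRange = IntermediateField.adjoin (v.adicCompletion K)
        ((explicitPoly π m k).rootSet (AlgebraicClosure (v.adicCompletion K))) := by
    intro m k ι
    have htop : IntermediateField.adjoin (v.adicCompletion K)
        ((explicitPoly π m k).rootSet (explicitPoly π m k).SplittingField) = ⊤ := by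
      refine eq_top_iff.2 fun y _ => IntermediateField.algebra_adjoin_le_adjoin _ _ ?_
      rw [SplittingField.adjoin_rootSet]
      trivial
    rw [← (SplittingField.splits _).image_rootSet ι, ← IntermediateField.adjoin_map, htop,
      ← AlgHom.fieldRange_eq_map]
  refine le_antisymm ?_ (IntermediateField.adjoin_le_iff.2 ?_)
  · refine iSup_le fun ⟨E, hEfin, hEab⟩ => ?_
    obtain ⟨m, k, hm, ⟨φ⟩⟩ := exists_algHom_explicit hπ hπK E
    let ι : (explicitPoly π m k).SplittingField →ₐ[v.adicCompletion K]
      AlgebraicClosure (v.adicCompletion K) := IsAlgClosed.lift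
    have hE : (ι.comp φ).fieldRange = E := AlgHom.fieldRange_of_normal _
    intro x (hx : x ∈ E)
    rw [← hE] at hx
    obtain ⟨y, rfl⟩ := AlgHom.mem_fieldRange.1 hx
    have h1 : ι (φ y) ∈ ι.fieldRange := AlgHom.mem_fieldRange.2 ⟨_, rfl⟩
    rw [hrange ι] at h1
    refine IntermediateField.adjoin.mono _ _ _ (fun z hz => ?_) h1
    rw [mem_rootSet', explicitPoly, map_mul, mul_eq_zero] at hz
    rcases hz.2 with h | h
    · exact Or.inl ⟨k, h⟩
    · simp only [map_sub, map_pow, aeval_X, map_one, sub_eq_zero] at h
      exact Or.inr ⟨m, hm, h⟩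
  · intro x hx
    obtain ⟨m, k, hm, hroot⟩ : ∃ m k : ℕ, 0 < m ∧ aeval x (explicitPoly π m k) = 0 := by
      rcases hx with ⟨k, h⟩ | ⟨m, hm, h⟩
      · exact ⟨1, k, one_pos, by rw [explicitPoly, map_mul, h, zero_mul]⟩
      · exact ⟨m, 0, hm, by simp [explicitPoly, h]⟩
    have hab := (normGroup_explicit hπ hπK hm k).1
    let ι : (explicitPoly π m k).SplittingField →ₐ[v.adicCompletion K]
      AlgebraicClosure (v.adicCompletion K) := IsAlgClosed.lift
    have hmem : x ∈ ι.fieldRange := by
      rw [hrange ι]
      exact IntermediateField.subset_adjoin _ _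
        (mem_rootSet.2 ⟨explicitPoly_ne_zero hπ hm k, hroot⟩)
    exact le_abClosure (AlgEquiv.ofInjectiveField ι).toLinearEquiv.finiteDimensional
      (IsAbelianGalois.of_algHom (AlgEquiv.ofInjectiveField ι).symm.toAlgHom) hmem

end Fermat.Agent.LubinTate
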